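import Mathlib
import Fermat.Prelude.Def_ModularForm_HeckeOperator

/-!
# DS / Hecke1: coset computations for the Hecke operators on `Γ₁(N)`

Function-level theory (no modular forms yet):

* `Inv1 N k F` : `F : ℍ → ℂ` is invariant under the weight-`k` slash action of `Γ₁(N)`;
* `dia N k d F` : the diamond translate `F ∣[k] γ` for a chosen `γ ∈ Γ₀(N)` with lower-right entry
  `≡ d` (`slash_eq_dia`: any such `γ` gives the same function);
* `T1 N k p u F = heckeU k p F + (dia N k u F) ∣[k] heckeDiagMatrix p` (with `u = p` in `(ZMod N)ˣ`),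
  the Hecke operator `T_p` on `Γ₁(N)`-invariant functions;
* `T1_slash` : for `γ ∈ Γ₀(N)` with lower-right entry `≡ d`, `(T_p F) ∣[k] γ = T_p (⟨d⟩ F)`.
  In particular `T_p F` is again `Γ₁(N)`-invariant and `T_p` commutes with the diamond operators.
-/

set_option autoImplicit false

noncomputable section

namespace Fermat.Agent.DS.Hecke1

open Matrix.SpecialLinearGroup UpperHalfPlane ModularForm CongruenceSubgroup
open scoped MatrixGroups ModularForm OnePoint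

/-! ### Matrix identities -/

theorem mapGL_apply' (g : SL(2, ℤ)) (i j : Fin 2) :
    (mapGL ℝ g : GL (Fin 2) ℝ) i j = ((g i j : ℤ) : ℝ) := by
  simp

theorem det_eq' (g : SL(2, ℤ)) : g 0 0 * g 1 1 - g 0 1 * g 1 0 = 1 := by
  have h := g.det_coe
  rwa [Matrix.det_fin_two] at h

section commutation

variable {p : ℕ} (hp : p ≠ 0)
include hp

theorem bb_mul (g : SL(2, ℤ)) (j j' : ℕ) (e : ℤ)
    (he : g 0 1 + j * g 1 1 = j' * (g 0 0 + j * g 1 0) + p * e) :
    ∃ g' : SL(2, ℤ), g' 1 0 = p * g 1 0 ∧ g' 1 1 = g 1 1 - g 1 0 * j' ∧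
      heckeMatrix p j * mapGL ℝ g = mapGL ℝ g' * heckeMatrix p j' := by
  have hdet := det_eq' g
  refine ⟨⟨!![g 0 0 + j * g 1 0, e; p * g 1 0, g 1 1 - g 1 0 * j'], ?_⟩, rfl, rfl, ?_⟩
  · rw [Matrix.det_fin_two_of]
    linear_combination hdet + (g 1 0) * he
  · ext i j
    fin_cases i <;> fin_cases j <;>
      simp [hp, Matrix.mul_apply, Fin.sum_univ_two]
    all_goals first
      | (have := congrArg (Int.cast : ℤ → ℝ) he; push_cast at this ⊢; linear_combination this)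
      | (have := congrArg (Int.cast : ℤ → ℝ) he; push_cast at this ⊢; linear_combination -this)
      | ring1

theorem bd_mul (g : SL(2, ℤ)) (j : ℕ) (e : ℤ)
    (he : g 0 0 + j * g 1 0 = p * e) :
    ∃ g' : SL(2, ℤ), g' 1 0 = g 1 0 ∧ g' 1 1 = p * g 1 1 ∧
      heckeMatrix p j * mapGL ℝ g = mapGL ℝ g' * heckeDiagMatrix p := by
  have hdet := det_eq' g
  refine ⟨⟨!![e, g 0 1 + j * g 1 1; g 1 0, p * g 1 1], ?_⟩, rfl, rfl, ?_⟩
  · rw [Matrix.det_fin_two_of]
    linear_combination hdet - (g 1 1) * he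
  · ext i j
    fin_cases i <;> fin_cases j <;>
      simp [hp, Matrix.mul_apply, Fin.sum_univ_two]
    all_goals first
      | (have := congrArg (Int.cast : ℤ → ℝ) he; push_cast at this ⊢; linear_combination this)
      | (have := congrArg (Int.cast : ℤ → ℝ) he; push_cast at this ⊢; linear_combination -this)
      | ring1

theorem db_mul (g : SL(2, ℤ)) (j' : ℕ) (e : ℤ)
    (he : g 1 1 = g 1 0 * j' + p * e) :
    ∃ g' : SL(2, ℤ), g' 1 0 = g 1 0 ∧ g' 1 1 = e ∧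
      heckeDiagMatrix p * mapGL ℝ g = mapGL ℝ g' * heckeMatrix p j' := by
  have hdet := det_eq' g
  refine ⟨⟨!![p * g 0 0, g 0 1 - g 0 0 * j'; g 1 0, e], ?_⟩, rfl, rfl, ?_⟩
  · rw [Matrix.det_fin_two_of]
    linear_combination hdet - (g 0 0) * he
  · ext i j
    fin_cases i <;> fin_cases j <;>
      simp [hp, Matrix.mul_apply, Fin.sum_univ_two]
    all_goals first
      | (have := congrArg (Int.cast : ℤ → ℝ) he; push_cast at this ⊢; linear_combination this)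
      | (have := congrArg (Int.cast : ℤ → ℝ) he; push_cast at this ⊢; linear_combination -this)
      | ring1

theorem dd_mul (g : SL(2, ℤ)) (e : ℤ) (he : g 1 0 = p * e) :
    ∃ g' : SL(2, ℤ), g' 1 0 = e ∧ g' 1 1 = g 1 1 ∧
      heckeDiagMatrix p * mapGL ℝ g = mapGL ℝ g' * heckeDiagMatrix p := by
  have hdet := det_eq' g
  refine ⟨⟨!![g 0 0, p * g 0 1; e, g 1 1], ?_⟩, rfl, rfl, ?_⟩
  · rw [Matrix.det_fin_two_of]
    linear_combination hdet + (g 0 1) * he
  · ext i j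
    fin_cases i <;> fin_cases j <;>
      simp [hp, Matrix.mul_apply, Fin.sum_univ_two]
    all_goals first
      | (have := congrArg (Int.cast : ℤ → ℝ) he; push_cast at this ⊢; linear_combination this)
      | (have := congrArg (Int.cast : ℤ → ℝ) he; push_cast at this ⊢; linear_combination -this)
      | ring1

end commutation

/-! ### `Γ₁(N)`-invariant functions and diamond translates -/

/-- The lower-right entry of `γ` modulo `N`. -/
def lr (N : ℕ) (γ : SL(2, ℤ)) : ZMod N := ((γ 1 1 : ℤ) : ZMod N)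

theorem lr_def (N : ℕ) (γ : SL(2, ℤ)) : lr N γ = ((γ 1 1 : ℤ) : ZMod N) := rfl

/-- `F` is invariant under the weight-`k` slash action of `Γ₁(N)`. -/
def Inv1 (N : ℕ) (k : ℤ) (F : ℍ → ℂ) : Prop :=
  ∀ γ : SL(2, ℤ), γ ∈ Gamma1 N → F ∣[k] (mapGL ℝ γ) = F

variable {N : ℕ} {k : ℤ}

theorem lr_mul {γ γ' : SL(2, ℤ)} (hγ : γ ∈ Gamma0 N) : lr N (γ * γ') = lr N γ * lr N γ' := by
  have h0 : ((γ 1 0 : ℤ) : ZMod N) = 0 := Gamma0_mem.mp hγ
  simp only [lr, Matrix.SpecialLinearGroup.coe_mul, Matrix.mul_apply, Fin.sum_univ_two]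
  push_cast
  rw [h0, zero_mul, zero_add]

theorem lr_one : lr N (1 : SL(2, ℤ)) = 1 := by
  simp [lr]

theorem mem_Gamma1_of_lr_eq_one {γ : SL(2, ℤ)} (hγ : γ ∈ Gamma0 N) (h : lr N γ = 1) :
    γ ∈ Gamma1 N := by
  have h0 : ((γ 1 0 : ℤ) : ZMod N) = 0 := Gamma0_mem.mp hγ
  have h1 : ((γ 1 1 : ℤ) : ZMod N) = 1 := h
  rw [Gamma1_mem]
  refine ⟨?_, h1, h0⟩
  have hdet := congrArg (Int.cast : ℤ → ZMod N) (det_eq' γ)
  push_cast at hdet
  rw [h0, h1, mul_zero, sub_zero, mul_one] at hdet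
  exact hdet

theorem lr_eq_one_of_mem_Gamma1 {γ : SL(2, ℤ)} (hγ : γ ∈ Gamma1 N) : lr N γ = 1 :=
  ((Gamma1_mem N γ).mp hγ).2.1

theorem slash_eq_of_lr_eq {F : ℍ → ℂ} (hF : Inv1 N k F) {γ γ' : SL(2, ℤ)}
    (hγ : γ ∈ Gamma0 N) (hγ' : γ' ∈ Gamma0 N) (h : lr N γ = lr N γ') :
    F ∣[k] mapGL ℝ γ = F ∣[k] mapGL ℝ γ' := by
  have hmem0 : γ * γ'⁻¹ ∈ Gamma0 N := (Gamma0 N).mul_mem hγ ((Gamma0 N).inv_mem hγ')
  have hlr : lr N (γ * γ'⁻¹) = 1 := by
    rw [lr_mul hγ, h, ← lr_mul hγ', mul_inv_cancel, lr_one]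
  have hmem : γ * γ'⁻¹ ∈ Gamma1 N := mem_Gamma1_of_lr_eq_one hmem0 hlr
  have hγeq : γ = (γ * γ'⁻¹) * γ' := by group
  conv_lhs => rw [hγeq, map_mul, SlashAction.slash_mul, hF _ hmem]

theorem inv1_slash {F : ℍ → ℂ} (hF : Inv1 N k F) {γ : SL(2, ℤ)} (hγ : γ ∈ Gamma0 N) :
    Inv1 N k (F ∣[k] mapGL ℝ γ) := by
  intro δ hδ
  rw [← SlashAction.slash_mul, ← map_mul]
  refine slash_eq_of_lr_eq hF ((Gamma0 N).mul_mem hγ (Gamma1_in_Gamma0 N hδ)) hγ ?_
  rw [lr_mul hγ, lr_eq_one_of_mem_Gamma1 hδ, mul_one]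

/-- For every unit `d` mod `N` and every `p` prime to `N` there is `γ ∈ Γ₀(N)` with lower-right
entry `≡ d` and lower-left entry divisible by `p`. -/
theorem exists_rep_dvd [NeZero N] (d : (ZMod N)ˣ) (p : ℕ) (hp : p.Coprime N) :
    ∃ γ : SL(2, ℤ), γ ∈ Gamma0 N ∧ (p : ℤ) ∣ γ 1 0 ∧ lr N γ = d := by
  have hd : ((d : ZMod N).val).Coprime N := ZMod.val_coe_unit_coprime d
  obtain ⟨a, ha1, ha2⟩ := Nat.chineseRemainder hp 1 (d : ZMod N).val
  have hap : a.Coprime p := by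
    have := ha1.gcd_eq
    rw [Nat.Coprime, this]; exact Nat.gcd_one_left p
  have haN : a.Coprime N := by
    have := ha2.gcd_eq
    rw [Nat.Coprime, this]; exact hd
  have hcop : IsCoprime (a : ℤ) ((p * N : ℕ) : ℤ) :=
    Nat.isCoprime_iff_coprime.mpr (Nat.Coprime.mul_right hap haN)
  obtain ⟨x, y, hxy⟩ := hcop
  refine ⟨⟨!![x, -y; ((p * N : ℕ) : ℤ), (a : ℤ)], ?_⟩, ?_, ?_, ?_⟩
  · rw [Matrix.det_fin_two_of]; linear_combination hxy
  · rw [Gamma0_mem]
    show (((p * N : ℕ) : ℤ) : ZMod N) = 0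
    push_cast
    rw [ZMod.natCast_self, mul_zero]
  · show (p : ℤ) ∣ ((p * N : ℕ) : ℤ)
    push_cast
    exact dvd_mul_right _ _
  · show ((a : ℤ) : ZMod N) = d
    rw [Int.cast_natCast, (ZMod.natCast_eq_natCast_iff a _ N).mpr ha2, ZMod.natCast_zmod_val]

theorem exists_rep [NeZero N] (d : (ZMod N)ˣ) :
    ∃ γ : SL(2, ℤ), γ ∈ Gamma0 N ∧ lr N γ = d := by
  obtain ⟨γ, h1, -, h2⟩ := exists_rep_dvd d 1 (Nat.coprime_one_left N)
  exact ⟨γ, h1, h2⟩

/-- A chosen element of `Γ₀(N)` with lower-right entry `≡ d`. -/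
def rep (N : ℕ) [NeZero N] (d : (ZMod N)ˣ) : SL(2, ℤ) := Classical.choose (exists_rep d)

theorem rep_mem [NeZero N] (d : (ZMod N)ˣ) : rep N d ∈ Gamma0 N :=
  (Classical.choose_spec (exists_rep d)).1

theorem lr_rep [NeZero N] (d : (ZMod N)ˣ) : lr N (rep N d) = d :=
  (Classical.choose_spec (exists_rep d)).2

/-- The diamond translate `⟨d⟩ F` of a function. -/
def dia (N : ℕ) [NeZero N] (k : ℤ) (d : (ZMod N)ˣ) (F : ℍ → ℂ) : ℍ → ℂ :=
  F ∣[k] mapGL ℝ (rep N d)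

variable [NeZero N]

theorem slash_eq_dia {F : ℍ → ℂ} (hF : Inv1 N k F) {γ : SL(2, ℤ)} (hγ : γ ∈ Gamma0 N)
    {d : (ZMod N)ˣ} (h : lr N γ = d) : F ∣[k] mapGL ℝ γ = dia N k d F :=
  slash_eq_of_lr_eq hF hγ (rep_mem d) (h.trans (lr_rep d).symm)

theorem inv1_dia {F : ℍ → ℂ} (hF : Inv1 N k F) (d : (ZMod N)ˣ) : Inv1 N k (dia N k d F) :=
  inv1_slash hF (rep_mem d)

theorem dia_one {F : ℍ → ℂ} (hF : Inv1 N k F) : dia N k 1 F = F := by
  have h := slash_eq_dia (k := k) hF (Subgroup.one_mem (Gamma0 N)) (d := 1)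
    (by rw [lr_one]; rfl)
  rw [← h, map_one, SlashAction.slash_one]

theorem dia_dia {F : ℍ → ℂ} (hF : Inv1 N k F) (d d' : (ZMod N)ˣ) :
    dia N k d' (dia N k d F) = dia N k (d * d') F := by
  have h := slash_eq_dia (k := k) hF ((Gamma0 N).mul_mem (rep_mem d) (rep_mem d')) (d := d * d')
    (by rw [lr_mul (rep_mem d), lr_rep, lr_rep]; rfl)
  rw [← h, map_mul, SlashAction.slash_mul]
  rfl

theorem dia_add (d : (ZMod N)ˣ) (F G : ℍ → ℂ) :
    dia N k d (F + G) = dia N k d F + dia N k d G :=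
  SlashAction.add_slash _ _ _ _

theorem dia_smul (d : (ZMod N)ˣ) (c : ℂ) (F : ℍ → ℂ) :
    dia N k d (c • F) = c • dia N k d F := by
  exact ModularForm.SL_smul_slash k (rep N d) F c

/-! ### The coset representatives of `T_p` -/

section rep

variable {p : ℕ}

/-- The representatives `(1 j; 0 p)` (`j : ZMod p`) and `(p 0; 0 1)` (at `∞`). -/
def hRep (p : ℕ) (x : OnePoint (ZMod p)) : GL (Fin 2) ℝ :=
  x.elim (heckeDiagMatrix p) (fun j ↦ heckeMatrix p j.val)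

theorem hRep_infty : hRep p ∞ = heckeDiagMatrix p := rfl

theorem hRep_coe (j : ZMod p) : hRep p j = heckeMatrix p j.val := rfl

/-- The factor `p` at `∞`, `1` at finite points (tracks the lower-right entry mod `N`). -/
def cfac (N p : ℕ) (x : OnePoint (ZMod p)) : ZMod N := x.elim (p : ZMod N) (fun _ ↦ 1)

omit [NeZero N] in
theorem cfac_infty : cfac N p ∞ = (p : ZMod N) := rfl

omit [NeZero N] in
theorem cfac_coe (j : ZMod p) : cfac N p (j : OnePoint (ZMod p)) = 1 := rfl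

theorem sum_range_eq_sum_zmod' [NeZero p] {M : Type*} [AddCommMonoid M] (F : ℕ → M) :
    ∑ j ∈ Finset.range p, F j = ∑ x : ZMod p, F x.val := by
  refine Finset.sum_nbij' (fun j : ℕ ↦ (j : ZMod p)) (fun x : ZMod p ↦ x.val)
    (fun _ _ ↦ Finset.mem_univ _)
    (fun x _ ↦ Finset.mem_range.mpr x.val_lt) (fun j hj ↦ ?_) (fun x _ ↦ ?_) (fun j hj ↦ ?_)
  · exact ZMod.val_cast_of_lt (Finset.mem_range.mp hj)
  · exact ZMod.natCast_zmod_val x
  · rw [ZMod.val_cast_of_lt (Finset.mem_range.mp hj)]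

variable [Fact p.Prime]

variable (p) in
/-- The matrix in `GL₂(𝔽_p)` by which `g` permutes the representatives. -/
def rMat (g : SL(2, ℤ)) : GL (Fin 2) (ZMod p) :=
  Matrix.GeneralLinearGroup.mkOfDetNeZero
    !![((g 1 1 : ℤ) : ZMod p), ((g 0 1 : ℤ) : ZMod p);
      ((g 1 0 : ℤ) : ZMod p), ((g 0 0 : ℤ) : ZMod p)]
    (by
      have := congrArg (Int.cast : ℤ → ZMod p) (det_eq' g)
      push_cast at this
      rw [Matrix.det_fin_two_of,
        show ((g 1 1 : ℤ) : ZMod p) * ((g 0 0 : ℤ) : ZMod p) -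
            ((g 0 1 : ℤ) : ZMod p) * ((g 1 0 : ℤ) : ZMod p) = 1 by linear_combination this]
      exact one_ne_zero)

theorem rMat_apply_zero_zero (g : SL(2, ℤ)) : rMat p g 0 0 = ((g 1 1 : ℤ) : ZMod p) := by
  simp [rMat]

theorem rMat_apply_zero_one (g : SL(2, ℤ)) : rMat p g 0 1 = ((g 0 1 : ℤ) : ZMod p) := by
  simp [rMat]

theorem rMat_apply_one_zero (g : SL(2, ℤ)) : rMat p g 1 0 = ((g 1 0 : ℤ) : ZMod p) := by
  simp [rMat]

theorem rMat_apply_one_one (g : SL(2, ℤ)) : rMat p g 1 1 = ((g 0 0 : ℤ) : ZMod p) := by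
  simp [rMat]

omit [NeZero N] in
/-- The key coset computation: `β_x g = g' β_{g·x}` with `g' ∈ Γ₀(N)` whose lower-right entry is
that of `g` times `p^{±1}` according to whether `x`, `g·x` are `∞`. -/
theorem rep_mul (hpN : ¬ p ∣ N) (g : SL(2, ℤ)) (hg : (N : ℤ) ∣ g 1 0)
    (x : OnePoint (ZMod p)) :
    ∃ g' : SL(2, ℤ), (N : ℤ) ∣ g' 1 0 ∧
      hRep p x * mapGL ℝ g = mapGL ℝ g' * hRep p (rMat p g • x) ∧
      lr N g' * cfac N p x = lr N g * cfac N p (rMat p g • x) := by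
  have hp : p ≠ 0 := (Fact.out : p.Prime).ne_zero
  have : NeZero p := ⟨hp⟩
  have hg0 : ((g 1 0 : ℤ) : ZMod N) = 0 := (ZMod.intCast_zmod_eq_zero_iff_dvd _ _).mpr hg
  induction x using OnePoint.rec with
  | infty =>
    rw [OnePoint.smul_infty_eq_ite]
    by_cases hc : ((g 1 0 : ℤ) : ZMod p) = 0
    · rw [if_pos (by simpa [rMat_apply_one_zero] using hc), hRep_infty]
      obtain ⟨e, he⟩ := (ZMod.intCast_zmod_eq_zero_iff_dvd _ _).mp hc
      obtain ⟨g', hg', hg'1, hmul⟩ := dd_mul hp g e he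
      refine ⟨g', ?_, hmul, ?_⟩
      · rw [hg']
        have hcop : IsCoprime (N : ℤ) (p : ℤ) :=
          Nat.isCoprime_iff_coprime.mpr ((Nat.Prime.coprime_iff_not_dvd Fact.out).mpr hpN).symm
        exact hcop.dvd_of_dvd_mul_left (he ▸ hg)
      · rw [lr_def, lr_def, hg'1]
    · rw [if_neg (by simpa [rMat_apply_one_zero] using hc), hRep_infty, hRep_coe]
      set y : ZMod p := rMat p g 0 0 / rMat p g 1 0 with hy
      obtain ⟨e, he⟩ : (p : ℤ) ∣ g 1 1 - g 1 0 * y.val := by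
        rw [← ZMod.intCast_zmod_eq_zero_iff_dvd]
        push_cast
        rw [ZMod.natCast_zmod_val, hy, rMat_apply_zero_zero, rMat_apply_one_zero,
          mul_div_cancel₀ _ hc, sub_self]
      obtain ⟨g', hg', hg'1, hmul⟩ := db_mul hp g y.val e (by linear_combination he)
      refine ⟨g', hg' ▸ hg, hmul, ?_⟩
      rw [lr_def, lr_def, hg'1, cfac_infty, cfac_coe, mul_one]
      have := congrArg (Int.cast : ℤ → ZMod N) he
      push_cast at this
      rw [hg0, zero_mul, sub_zero] at this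
      rw [this, mul_comm]
  | coe j =>
    rw [OnePoint.smul_some_eq_ite]
    by_cases h : rMat p g 1 0 * j + rMat p g 1 1 = 0
    · rw [if_pos h, hRep_infty, hRep_coe]
      rw [rMat_apply_one_zero, rMat_apply_one_one] at h
      obtain ⟨e, he⟩ : (p : ℤ) ∣ g 0 0 + j.val * g 1 0 := by
        rw [← ZMod.intCast_zmod_eq_zero_iff_dvd]
        push_cast
        rw [ZMod.natCast_zmod_val]
        linear_combination h
      obtain ⟨g', hg', hg'1, hmul⟩ := bd_mul hp g j.val e he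
      refine ⟨g', hg' ▸ hg, hmul, ?_⟩
      rw [lr_def, lr_def, hg'1, cfac_infty, cfac_coe, mul_one]
      push_cast
      rw [mul_comm]
    · rw [if_neg h, hRep_coe, hRep_coe]
      set y : ZMod p := (rMat p g 0 0 * j + rMat p g 0 1) /
        (rMat p g 1 0 * j + rMat p g 1 1) with hy
      obtain ⟨e, he⟩ : (p : ℤ) ∣ g 0 1 + j.val * g 1 1 - y.val * (g 0 0 + j.val * g 1 0) := by
        rw [← ZMod.intCast_zmod_eq_zero_iff_dvd]
        push_cast
        rw [ZMod.natCast_zmod_val, ZMod.natCast_zmod_val,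
          show ((g 0 0 : ℤ) : ZMod p) + j * ((g 1 0 : ℤ) : ZMod p)
            = rMat p g 1 0 * j + rMat p g 1 1 by
              rw [rMat_apply_one_zero, rMat_apply_one_one]; ring,
          hy, div_mul_cancel₀ _ h, rMat_apply_zero_zero, rMat_apply_zero_one]
        ring
      obtain ⟨g', hg', hg'1, hmul⟩ := bb_mul hp g j.val y.val e (by linear_combination he)
      refine ⟨g', hg' ▸ dvd_mul_of_dvd_right hg _, hmul, ?_⟩
      rw [lr_def, lr_def, hg'1, cfac_coe, cfac_coe]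
      push_cast
      rw [hg0, zero_mul, sub_zero]

end rep

/-! ### The operator `T_p` on `Γ₁(N)`-invariant functions -/

section T1

variable {p : ℕ}

/-- The unit attached to a representative: `u` at `∞`, `1` at the finite points. -/
def cU (u : (ZMod N)ˣ) (x : OnePoint (ZMod p)) : (ZMod N)ˣ := x.elim u (fun _ ↦ 1)

omit [NeZero N] in
theorem cU_infty (u : (ZMod N)ˣ) : cU (p := p) u ∞ = u := rfl

omit [NeZero N] in
theorem cU_coe (u : (ZMod N)ˣ) (j : ZMod p) : cU u (j : OnePoint (ZMod p)) = 1 := rfl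

omit [NeZero N] in
theorem coe_cU (u : (ZMod N)ˣ) (hu : (u : ZMod N) = (p : ZMod N)) (x : OnePoint (ZMod p)) :
    ((cU u x : (ZMod N)ˣ) : ZMod N) = cfac N p x := by
  induction x using OnePoint.rec with
  | infty => rw [cU_infty, cfac_infty, hu]
  | coe j => rw [cU_coe, cfac_coe, Units.val_one]

/-- The Hecke operator `T_p` on `Γ₁(N)`-invariant functions; `u` is the class of `p` in
`(ZMod N)ˣ`: `T_p F = U_p F + (⟨p⟩ F) ∣ (p 0; 0 1)`. -/
def T1 (N : ℕ) [NeZero N] (k : ℤ) (p : ℕ) (u : (ZMod N)ˣ) (F : ℍ → ℂ) : ℍ → ℂ :=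
  heckeU k p F + (dia N k u F) ∣[k] heckeDiagMatrix p

theorem T1_def (u : (ZMod N)ˣ) (F : ℍ → ℂ) :
    T1 N k p u F = heckeU k p F + (dia N k u F) ∣[k] heckeDiagMatrix p := rfl

theorem T1_eq_sum [NeZero p] (u : (ZMod N)ˣ) {F : ℍ → ℂ} (hF : Inv1 N k F) :
    T1 N k p u F = ∑ x : OnePoint (ZMod p), (dia N k (cU u x) F) ∣[k] hRep p x := by
  rw [T1, heckeU_def, sum_range_eq_sum_zmod', add_comm]
  refine Eq.trans ?_ (Fintype.sum_option
    (fun x : OnePoint (ZMod p) ↦ (dia N k (cU u x) F) ∣[k] hRep p x)).symm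
  congr 1
  refine Finset.sum_congr rfl fun j _ => ?_
  show F ∣[k] heckeMatrix p j.val = (dia N k 1 F) ∣[k] heckeMatrix p j.val
  rw [dia_one hF]

theorem T1_add (u : (ZMod N)ˣ) (F G : ℍ → ℂ) :
    T1 N k p u (F + G) = T1 N k p u F + T1 N k p u G := by
  simp only [T1, heckeU_add, dia_add, SlashAction.add_slash]
  abel

theorem T1_smul (u : (ZMod N)ˣ) (c : ℂ) (F : ℍ → ℂ) :
    T1 N k p u (c • F) = c • T1 N k p u F := by
  rw [T1, T1, heckeU_smul, dia_smul, ModularForm.smul_slash, σ_heckeDiagMatrix,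
    ContinuousAlgEquiv.refl_apply, smul_add]

/-- **Main coset identity**: for `γ ∈ Γ₀(N)` with lower-right entry `≡ d`,
`(T_p F) ∣ γ = T_p (⟨d⟩ F)`. -/
theorem T1_slash [Fact p.Prime] (hpN : ¬ p ∣ N) (u : (ZMod N)ˣ)
    (hu : (u : ZMod N) = (p : ZMod N)) {F : ℍ → ℂ} (hF : Inv1 N k F) {γ : SL(2, ℤ)}
    (hγ : γ ∈ Gamma0 N) {d : (ZMod N)ˣ} (hd : lr N γ = d) :
    (T1 N k p u F) ∣[k] mapGL ℝ γ = T1 N k p u (dia N k d F) := by
  have : NeZero p := ⟨(Fact.out : p.Prime).ne_zero⟩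
  have hcN : (N : ℤ) ∣ γ 1 0 :=
    (ZMod.intCast_zmod_eq_zero_iff_dvd _ _).mp (Gamma0_mem.mp hγ)
  rw [T1_eq_sum u hF, T1_eq_sum u (inv1_dia hF d), SlashAction.sum_slash]
  calc ∑ x : OnePoint (ZMod p), ((dia N k (cU u x) F) ∣[k] hRep p x) ∣[k] mapGL ℝ γ
      = ∑ x : OnePoint (ZMod p),
          (dia N k (cU u (rMat p γ • x)) (dia N k d F)) ∣[k] hRep p (rMat p γ • x) := by
        refine Finset.sum_congr rfl fun x _ ↦ ?_
        obtain ⟨g', hg', hmul, hrel⟩ := rep_mul hpN γ hcN x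
        have hg'N : g' ∈ Gamma0 N :=
          Gamma0_mem.mpr ((ZMod.intCast_zmod_eq_zero_iff_dvd _ _).mpr hg')
        rw [← SlashAction.slash_mul, hmul, SlashAction.slash_mul]
        congr 1
        -- the lower-right entry of `g'`
        have hlr : lr N g' = ((d * cU u (rMat p γ • x) * (cU u x)⁻¹ : (ZMod N)ˣ) : ZMod N) := by
          rw [hd, ← coe_cU u hu, ← coe_cU u hu] at hrel
          have h2 : lr N g' = lr N g' * ((cU u x : (ZMod N)ˣ) : ZMod N) *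
              (((cU u x)⁻¹ : (ZMod N)ˣ) : ZMod N) := by
            rw [mul_assoc, ← Units.val_mul, mul_inv_cancel, Units.val_one, mul_one]
          rw [h2, hrel]
          push_cast
          ring
        rw [slash_eq_dia (inv1_dia hF _) hg'N hlr, dia_dia hF, dia_dia hF]
        congr 1
        rw [mul_comm (cU u x), inv_mul_cancel_right]
    _ = ∑ x : OnePoint (ZMod p), (dia N k (cU u x) (dia N k d F)) ∣[k] hRep p x :=
        Equiv.sum_comp (MulAction.toPerm (rMat p γ))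
          (fun x ↦ (dia N k (cU u x) (dia N k d F)) ∣[k] hRep p x)

theorem inv1_T1 [Fact p.Prime] (hpN : ¬ p ∣ N) (u : (ZMod N)ˣ)
    (hu : (u : ZMod N) = (p : ZMod N)) {F : ℍ → ℂ} (hF : Inv1 N k F) :
    Inv1 N k (T1 N k p u F) := by
  intro γ hγ
  rw [T1_slash hpN u hu hF (Gamma1_in_Gamma0 N hγ) (d := 1)
    (by rw [lr_eq_one_of_mem_Gamma1 hγ]; rfl), dia_one hF]

theorem dia_T1 [Fact p.Prime] (hpN : ¬ p ∣ N) (u : (ZMod N)ˣ)
    (hu : (u : ZMod N) = (p : ZMod N)) {F : ℍ → ℂ} (hF : Inv1 N k F) (d : (ZMod N)ˣ) :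
    dia N k d (T1 N k p u F) = T1 N k p u (dia N k d F) :=
  T1_slash hpN u hu hF (rep_mem d) (lr_rep d)

end T1

end Fermat.Agent.DS.Hecke1
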