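import Mathlib
import Fermat.Prelude.Def_ModularForm_HeckeOperator
import Fermat.Prelude.Thm_ModularForm_mdifferentiable_heckeT
import Fermat.Prelude.Thm_ModularForm_mdifferentiable_heckeU
import Fermat.Prelude.Thm_ModularFormClass_isBoundedAt_heckeT
import Fermat.Prelude.Thm_ModularFormClass_isBoundedAt_heckeU
import Fermat.Prelude.Thm_CuspFormClass_isZeroAt_heckeT
import Fermat.Prelude.Thm_CuspFormClass_isZeroAt_heckeU
import Fermat.Agent.DS.Hecke1.Coset

/-!
# DS / Hecke1: diamond operators and Hecke operators `T_p` on `Γ₁(N)`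

For `N ≠ 0` and any weight `k : ℤ`:

* `diamondM k d`, `diamond k d` (`d : (ZMod N)ˣ`): the diamond operator `⟨d⟩` as a `ℂ`-linear
  endomorphism of `ModularForm (Gamma1 N) k`, resp. `CuspForm (Gamma1 N) k`;
  `coe_diamond_eq_slash`: it is `f ↦ f ∣[k] γ` for ANY `γ ∈ Γ₀(N)` with lower-right entry `≡ d`;
* `heckeTM k hp hpN`, `heckeT k hp hpN` (`p` prime, `p ∤ N`): the Hecke operator
  `T_p f = U_p f + (⟨p⟩ f) ∣[k] (p 0; 0 1)`, i.e. `(1/p) ∑_j f((z+j)/p) + p^(k-1) (⟨p⟩f)(pz)`.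
-/

set_option autoImplicit false

noncomputable section

namespace Fermat.Agent.DS.Hecke1

open Matrix.SpecialLinearGroup UpperHalfPlane ModularForm CongruenceSubgroup
open scoped MatrixGroups ModularForm OnePoint

variable {N : ℕ} {k : ℤ}

theorem inv1_of_slash {F : ℍ → ℂ}
    (h : ∀ γ ∈ (Gamma1 N : Subgroup (GL (Fin 2) ℝ)), F ∣[k] γ = F) : Inv1 N k F :=
  fun γ hγ => h _ (Subgroup.mem_map_of_mem _ hγ)

theorem slash_of_inv1 {F : ℍ → ℂ} (hF : Inv1 N k F) :
    ∀ γ ∈ (Gamma1 N : Subgroup (GL (Fin 2) ℝ)), F ∣[k] γ = F := by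
  rintro γ ⟨g, hg, rfl⟩
  exact hF g hg

theorem inv1_modularForm (f : ModularForm (Gamma1 N) k) : Inv1 N k ⇑f :=
  inv1_of_slash fun γ hγ => SlashInvariantFormClass.slash_action_eq f γ hγ

theorem inv1_cuspForm (f : CuspForm (Gamma1 N) k) : Inv1 N k ⇑f :=
  inv1_of_slash fun γ hγ => SlashInvariantFormClass.slash_action_eq f γ hγ

variable [NeZero N]

/-- Cusps of `Γ₁(N)` are stable under `SL(2, ℤ)`. -/
theorem isCusp_smul_SL {c : OnePoint ℝ} (hc : IsCusp c (Gamma1 N : Subgroup (GL (Fin 2) ℝ)))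
    (γ : SL(2, ℤ)) : IsCusp (mapGL ℝ γ • c) (Gamma1 N : Subgroup (GL (Fin 2) ℝ)) := by
  rw [Subgroup.IsArithmetic.isCusp_iff_isCusp_SL2Z, isCusp_SL2Z_iff'] at hc ⊢
  obtain ⟨g, rfl⟩ := hc
  exact ⟨γ * g, by rw [map_mul, mul_smul]⟩

theorem isBoundedAt_slash_SL (f : ModularForm (Gamma1 N) k) (γ : SL(2, ℤ)) {c : OnePoint ℝ}
    (hc : IsCusp c (Gamma1 N : Subgroup (GL (Fin 2) ℝ))) :
    c.IsBoundedAt (⇑f ∣[k] mapGL ℝ γ) k :=
  OnePoint.IsBoundedAt.smul_iff.mp (ModularFormClass.bdd_at_cusps f (isCusp_smul_SL hc γ))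

theorem isZeroAt_slash_SL (f : CuspForm (Gamma1 N) k) (γ : SL(2, ℤ)) {c : OnePoint ℝ}
    (hc : IsCusp c (Gamma1 N : Subgroup (GL (Fin 2) ℝ))) :
    c.IsZeroAt (⇑f ∣[k] mapGL ℝ γ) k :=
  OnePoint.IsZeroAt.smul_iff.mp (CuspFormClass.zero_at_cusps f (isCusp_smul_SL hc γ))

/-! ### Diamond operators -/

/-- The diamond operator `⟨d⟩` on modular forms of level `Γ₁(N)`. -/
def diamondM (k : ℤ) (d : (ZMod N)ˣ) : Module.End ℂ (ModularForm (Gamma1 N) k) where
  toFun f :=
    { toFun := dia N k d ⇑f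
      slash_action_eq' := slash_of_inv1 (inv1_dia (inv1_modularForm f) d)
      holo' := (ModularFormClass.holo f).slash k _
      bdd_at_cusps' := fun hc => isBoundedAt_slash_SL f (rep N d) hc }
  map_add' f g := DFunLike.coe_injective <|
    show dia N k d ⇑(f + g) = dia N k d ⇑f + dia N k d ⇑g by rw [ModularForm.coe_add, dia_add]
  map_smul' c f := DFunLike.coe_injective <|
    show dia N k d ⇑(c • f) = c • dia N k d ⇑f by rw [ModularForm.IsGLPos.coe_smul, dia_smul]

/-- The diamond operator `⟨d⟩` on cusp forms of level `Γ₁(N)`. -/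
def diamond (k : ℤ) (d : (ZMod N)ˣ) : Module.End ℂ (CuspForm (Gamma1 N) k) where
  toFun f :=
    { toFun := dia N k d ⇑f
      slash_action_eq' := slash_of_inv1 (inv1_dia (inv1_cuspForm f) d)
      holo' := (CuspFormClass.holo f).slash k _
      zero_at_cusps' := fun hc => isZeroAt_slash_SL f (rep N d) hc }
  map_add' f g := DFunLike.coe_injective <|
    show dia N k d ⇑(f + g) = dia N k d ⇑f + dia N k d ⇑g by rw [CuspForm.coe_add, dia_add]
  map_smul' c f := DFunLike.coe_injective <|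
    show dia N k d ⇑(c • f) = c • dia N k d ⇑f by rw [CuspForm.IsGLPos.coe_smul, dia_smul]

theorem coe_diamondM (d : (ZMod N)ˣ) (f : ModularForm (Gamma1 N) k) :
    ⇑(diamondM k d f) = dia N k d ⇑f := rfl

theorem coe_diamond (d : (ZMod N)ˣ) (f : CuspForm (Gamma1 N) k) :
    ⇑(diamond k d f) = dia N k d ⇑f := rfl

/-- `⟨d⟩ f = f ∣[k] γ` for every `γ ∈ Γ₀(N)` with lower-right entry `≡ d`. -/
theorem coe_diamondM_eq_slash (d : (ZMod N)ˣ) (f : ModularForm (Gamma1 N) k) (γ : SL(2, ℤ))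
    (hγ : γ ∈ Gamma0 N) (hd : ((γ 1 1 : ℤ) : ZMod N) = d) :
    ⇑(diamondM k d f) = ⇑f ∣[k] mapGL ℝ γ :=
  (slash_eq_dia (inv1_modularForm f) hγ hd).symm

/-- `⟨d⟩ f = f ∣[k] γ` for every `γ ∈ Γ₀(N)` with lower-right entry `≡ d`. -/
theorem coe_diamond_eq_slash (d : (ZMod N)ˣ) (f : CuspForm (Gamma1 N) k) (γ : SL(2, ℤ))
    (hγ : γ ∈ Gamma0 N) (hd : ((γ 1 1 : ℤ) : ZMod N) = d) :
    ⇑(diamond k d f) = ⇑f ∣[k] mapGL ℝ γ :=
  (slash_eq_dia (inv1_cuspForm f) hγ hd).symm

theorem diamondM_one : diamondM k (1 : (ZMod N)ˣ) = 1 := by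
  refine LinearMap.ext fun f => DFunLike.coe_injective ?_
  rw [coe_diamondM, dia_one (inv1_modularForm f)]
  rfl

theorem diamond_one : diamond k (1 : (ZMod N)ˣ) = 1 := by
  refine LinearMap.ext fun f => DFunLike.coe_injective ?_
  rw [coe_diamond, dia_one (inv1_cuspForm f)]
  rfl

theorem diamondM_mul (d d' : (ZMod N)ˣ) :
    diamondM k (d * d') = diamondM k d * diamondM k d' := by
  refine LinearMap.ext fun f => DFunLike.coe_injective ?_
  rw [Module.End.mul_apply, coe_diamondM, coe_diamondM, coe_diamondM, mul_comm d d',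
    dia_dia (inv1_modularForm f)]

theorem diamond_mul (d d' : (ZMod N)ˣ) :
    diamond k (d * d') = diamond k d * diamond k d' := by
  refine LinearMap.ext fun f => DFunLike.coe_injective ?_
  rw [Module.End.mul_apply, coe_diamond, coe_diamond, coe_diamond, mul_comm d d',
    dia_dia (inv1_cuspForm f)]

theorem diamondM_comm (d d' : (ZMod N)ˣ) : Commute (diamondM k d) (diamondM k d') := by
  show diamondM k d * diamondM k d' = diamondM k d' * diamondM k d
  rw [← diamondM_mul, ← diamondM_mul, mul_comm]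

theorem diamond_comm (d d' : (ZMod N)ˣ) : Commute (diamond k d) (diamond k d') := by
  show diamond k d * diamond k d' = diamond k d' * diamond k d
  rw [← diamond_mul, ← diamond_mul, mul_comm]

/-! ### The Hecke operators `T_p` -/

/-- The class of a prime `p ∤ N` in `(ZMod N)ˣ`. -/
def punit {p : ℕ} (hp : p.Prime) (hpN : ¬ p ∣ N) : (ZMod N)ˣ :=
  ZMod.unitOfCoprime p ((Nat.Prime.coprime_iff_not_dvd hp).mpr hpN)

theorem coe_punit {p : ℕ} (hp : p.Prime) (hpN : ¬ p ∣ N) :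
    ((punit hp hpN : (ZMod N)ˣ) : ZMod N) = (p : ZMod N) :=
  ZMod.coe_unitOfCoprime p _

theorem isBoundedAt_slash_diag (g : ModularForm (Gamma1 N) k) (p : ℕ) {c : OnePoint ℝ}
    (hc : IsCusp c (Gamma1 N : Subgroup (GL (Fin 2) ℝ))) :
    c.IsBoundedAt (⇑g ∣[k] heckeDiagMatrix p) k := by
  have h : ⇑g ∣[k] heckeDiagMatrix p = ModularForm.heckeT k p ⇑g + ModularForm.heckeU k p ⇑(-g) := by
    rw [ModularForm.coe_neg, heckeU_neg, heckeT_eq_heckeU_add]
    abel
  rw [h]
  exact (ModularFormClass.isBoundedAt_heckeT g p hc).add (ModularFormClass.isBoundedAt_heckeU (-g) p hc)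

theorem isZeroAt_slash_diag (g : CuspForm (Gamma1 N) k) (p : ℕ) {c : OnePoint ℝ}
    (hc : IsCusp c (Gamma1 N : Subgroup (GL (Fin 2) ℝ))) :
    c.IsZeroAt (⇑g ∣[k] heckeDiagMatrix p) k := by
  have h : ⇑g ∣[k] heckeDiagMatrix p = ModularForm.heckeT k p ⇑g + ModularForm.heckeU k p ⇑(-g) := by
    rw [CuspForm.coe_neg, heckeU_neg, heckeT_eq_heckeU_add]
    abel
  rw [h]
  exact (CuspFormClass.isZeroAt_heckeT g p hc).add (CuspFormClass.isZeroAt_heckeU (-g) p hc)

/-- The Hecke operator `T_p` (`p` prime, `p ∤ N`) on modular forms of level `Γ₁(N)`. -/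
def heckeTM (k : ℤ) {p : ℕ} (hp : p.Prime) (hpN : ¬ p ∣ N) :
    Module.End ℂ (ModularForm (Gamma1 N) k) :=
  haveI : Fact p.Prime := ⟨hp⟩
  { toFun := fun f =>
      { toFun := T1 N k p (punit hp hpN) ⇑f
        slash_action_eq' := slash_of_inv1
          (inv1_T1 hpN (punit hp hpN) (coe_punit hp hpN) (inv1_modularForm f))
        holo' := (mdifferentiable_heckeU (ModularFormClass.holo f) k p).add
          ((ModularFormClass.holo (diamondM k (punit hp hpN) f)).slash k _)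
        bdd_at_cusps' := fun hc => (ModularFormClass.isBoundedAt_heckeU f p hc).add
          (isBoundedAt_slash_diag (diamondM k (punit hp hpN) f) p hc) }
    map_add' := fun f g => DFunLike.coe_injective <|
      show T1 N k p (punit hp hpN) ⇑(f + g) =
          T1 N k p (punit hp hpN) ⇑f + T1 N k p (punit hp hpN) ⇑g by
        rw [ModularForm.coe_add, T1_add]
    map_smul' := fun c f => DFunLike.coe_injective <|
      show T1 N k p (punit hp hpN) ⇑(c • f) = c • T1 N k p (punit hp hpN) ⇑f by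
        rw [ModularForm.IsGLPos.coe_smul, T1_smul] }

/-- The Hecke operator `T_p` (`p` prime, `p ∤ N`) on cusp forms of level `Γ₁(N)`. -/
def heckeT (k : ℤ) {p : ℕ} (hp : p.Prime) (hpN : ¬ p ∣ N) :
    Module.End ℂ (CuspForm (Gamma1 N) k) :=
  haveI : Fact p.Prime := ⟨hp⟩
  { toFun := fun f =>
      { toFun := T1 N k p (punit hp hpN) ⇑f
        slash_action_eq' := slash_of_inv1
          (inv1_T1 hpN (punit hp hpN) (coe_punit hp hpN) (inv1_cuspForm f))
        holo' := (mdifferentiable_heckeU (CuspFormClass.holo f) k p).add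
          ((CuspFormClass.holo (diamond k (punit hp hpN) f)).slash k _)
        zero_at_cusps' := fun hc => (CuspFormClass.isZeroAt_heckeU f p hc).add
          (isZeroAt_slash_diag (diamond k (punit hp hpN) f) p hc) }
    map_add' := fun f g => DFunLike.coe_injective <|
      show T1 N k p (punit hp hpN) ⇑(f + g) =
          T1 N k p (punit hp hpN) ⇑f + T1 N k p (punit hp hpN) ⇑g by
        rw [CuspForm.coe_add, T1_add]
    map_smul' := fun c f => DFunLike.coe_injective <|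
      show T1 N k p (punit hp hpN) ⇑(c • f) = c • T1 N k p (punit hp hpN) ⇑f by
        rw [CuspForm.IsGLPos.coe_smul, T1_smul] }

theorem coe_heckeTM {p : ℕ} (hp : p.Prime) (hpN : ¬ p ∣ N) (f : ModularForm (Gamma1 N) k) :
    ⇑(heckeTM k hp hpN f) = ModularForm.heckeU k p ⇑f +
      ⇑(diamondM k (punit hp hpN) f) ∣[k] heckeDiagMatrix p := rfl

theorem coe_heckeT {p : ℕ} (hp : p.Prime) (hpN : ¬ p ∣ N) (f : CuspForm (Gamma1 N) k) :
    ⇑(heckeT k hp hpN f) = ModularForm.heckeU k p ⇑f +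
      ⇑(diamond k (punit hp hpN) f) ∣[k] heckeDiagMatrix p := rfl

/-- `T_p` commutes with the diamond operators. -/
theorem diamondM_heckeTM_comm (d : (ZMod N)ˣ) {p : ℕ} (hp : p.Prime) (hpN : ¬ p ∣ N) :
    Commute (diamondM k d) (heckeTM k hp hpN) := by
  haveI : Fact p.Prime := ⟨hp⟩
  refine LinearMap.ext fun f => DFunLike.coe_injective ?_
  show dia N k d (T1 N k p (punit hp hpN) ⇑f) = T1 N k p (punit hp hpN) (dia N k d ⇑f)
  exact dia_T1 hpN _ (coe_punit hp hpN) (inv1_modularForm f) d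

/-- `T_p` commutes with the diamond operators. -/
theorem diamond_heckeT_comm (d : (ZMod N)ˣ) {p : ℕ} (hp : p.Prime) (hpN : ¬ p ∣ N) :
    Commute (diamond k d) (heckeT k hp hpN) := by
  haveI : Fact p.Prime := ⟨hp⟩
  refine LinearMap.ext fun f => DFunLike.coe_injective ?_
  show dia N k d (T1 N k p (punit hp hpN) ⇑f) = T1 N k p (punit hp hpN) (dia N k d ⇑f)
  exact dia_T1 hpN _ (coe_punit hp hpN) (inv1_cuspForm f) d

end Fermat.Agent.DS.Hecke1
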