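import Mathlib
import Fermat.Prelude.Def_ModularForm_HeckeOperator
import Fermat.Prelude.Def_FLTPrelim_Modularity
import Fermat.Prelude.Thm_ModularForm_periodic_heckeT_comp_ofComplex
import Fermat.Prelude.Thm_ModularForm_periodic_heckeU_comp_ofComplex
import Fermat.Prelude.Thm_ModularForm_isBoundedAtImInfty_heckeT
import Fermat.Prelude.Thm_ModularForm_isBoundedAtImInfty_heckeU
import Fermat.Prelude.Thm_UpperHalfPlane_qCoeff_heckeT
import Fermat.Prelude.Thm_UpperHalfPlane_qCoeff_heckeU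
import Fermat.Agent.S23.QAnalytic
import Fermat.Agent.DS.Hecke1.Defs

/-!
# DS / Hecke1: `q`-expansions of `T_p` and `⟨d⟩` on `Γ₁(N)`

`qCoeff_heckeT` : `a_n(T_p f) = a_{np}(f) + [p ∣ n] p^(k-1) a_{n/p}(⟨p⟩ f)`.
-/

set_option autoImplicit false

noncomputable section

namespace Fermat.Agent.DS.Hecke1

open Matrix.SpecialLinearGroup UpperHalfPlane ModularForm CongruenceSubgroup
open Fermat.Agent.S23
open scoped MatrixGroups ModularForm OnePoint Manifold

variable {N : ℕ} {k : ℤ}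

theorem one_mem_strictPeriods1 (N : ℕ) :
    (1 : ℝ) ∈ (Gamma1 N : Subgroup (GL (Fin 2) ℝ)).strictPeriods := by
  have hT : ModularGroup.T ∈ Gamma1 N := by
    rw [Gamma1_mem]
    simp [ModularGroup.T]
  rw [Subgroup.strictPeriods_eq_zmultiples_one_of_T_mem hT]
  exact AddSubgroup.mem_zmultiples (1 : ℝ)

theorem qan_modularForm (f : ModularForm (Gamma1 N) k) : QAn (⇑f : ℍ → ℂ) := by
  have h1 := one_mem_strictPeriods1 N
  have : Fact (IsCusp OnePoint.infty (Gamma1 N : Subgroup (GL (Fin 2) ℝ))) :=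
    ⟨Subgroup.isCusp_of_mem_strictPeriods one_pos h1⟩
  exact
    { per := SlashInvariantFormClass.periodic_comp_ofComplex f h1
      hol := f.holo'
      bdd := ModularFormClass.bdd_at_infty f }

theorem qan_cuspForm (f : CuspForm (Gamma1 N) k) : QAn (⇑f : ℍ → ℂ) := by
  have h1 := one_mem_strictPeriods1 N
  have : Fact (IsCusp OnePoint.infty (Gamma1 N : Subgroup (GL (Fin 2) ℝ))) :=
    ⟨Subgroup.isCusp_of_mem_strictPeriods one_pos h1⟩
  exact
    { per := SlashInvariantFormClass.periodic_comp_ofComplex f h1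
      hol := f.holo'
      bdd := ModularFormClass.bdd_at_infty f }

theorem qan_heckeU {F : ℍ → ℂ} (hF : QAn F) (k : ℤ) (p : ℕ) : QAn (heckeU k p F) where
  per := ModularForm.periodic_heckeU_comp_ofComplex hF.per k p
  hol := ModularForm.mdifferentiable_heckeU hF.hol k p
  bdd := ModularForm.isBoundedAtImInfty_heckeU hF.bdd k p

theorem qan_heckeT' {F : ℍ → ℂ} (hF : QAn F) (k : ℤ) (p : ℕ) : QAn (ModularForm.heckeT k p F) where
  per := ModularForm.periodic_heckeT_comp_ofComplex hF.per k p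
  hol := ModularForm.mdifferentiable_heckeT hF.hol k p
  bdd := ModularForm.isBoundedAtImInfty_heckeT hF.bdd k p

theorem slash_diag_eq (F : ℍ → ℂ) (k : ℤ) (p : ℕ) :
    F ∣[k] heckeDiagMatrix p = ModularForm.heckeT k p F - heckeU k p F := by
  rw [heckeT_eq_heckeU_add]
  abel

theorem qan_slash_diag {F : ℍ → ℂ} (hF : QAn F) (k : ℤ) (p : ℕ) :
    QAn (F ∣[k] heckeDiagMatrix p) := by
  rw [slash_diag_eq]
  exact (qan_heckeT' hF k p).sub (qan_heckeU hF k p)

theorem qCoeff_add {F G : ℍ → ℂ} (hF : QAn F) (hG : QAn G) (n : ℕ) :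
    ModularFormClass.qCoeff (F + G) n = ModularFormClass.qCoeff F n + ModularFormClass.qCoeff G n := by
  unfold ModularFormClass.qCoeff
  rw [hF.qExpansion_add hG, map_add]

theorem qCoeff_sub {F G : ℍ → ℂ} (hF : QAn F) (hG : QAn G) (n : ℕ) :
    ModularFormClass.qCoeff (F - G) n = ModularFormClass.qCoeff F n - ModularFormClass.qCoeff G n := by
  unfold ModularFormClass.qCoeff
  rw [hF.qExpansion_sub hG, map_sub]

theorem qCoeff_smul {F : ℍ → ℂ} (hF : QAn F) (c : ℂ) (n : ℕ) :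
    ModularFormClass.qCoeff (c • F) n = c * ModularFormClass.qCoeff F n := by
  unfold ModularFormClass.qCoeff
  rw [hF.qExpansion_smul, PowerSeries.coeff_smul, smul_eq_mul]

/-- `a_n(F ∣[k] (p 0; 0 1)) = [p ∣ n] p^(k-1) a_{n/p}(F)`. -/
theorem qCoeff_slash_diag {F : ℍ → ℂ} (hF : QAn F) (k : ℤ) {p : ℕ} (hp : p ≠ 0) (n : ℕ) :
    ModularFormClass.qCoeff (F ∣[k] heckeDiagMatrix p) n =
      if p ∣ n then (p : ℂ) ^ (k - 1) * ModularFormClass.qCoeff F (n / p) else 0 := by
  rw [slash_diag_eq, qCoeff_sub (qan_heckeT' hF k p) (qan_heckeU hF k p),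
    UpperHalfPlane.qCoeff_heckeT hF.per hF.hol hF.bdd k hp,
    UpperHalfPlane.qCoeff_heckeU hF.per hF.hol hF.bdd k hp,
    coeffHeckeT_eq_coeffHeckeU_add, add_sub_cancel_left]

/-- `a_n(U_p F + G ∣[k] (p 0; 0 1)) = a_{np}(F) + [p ∣ n] p^(k-1) a_{n/p}(G)`. -/
theorem qCoeff_heckeU_add_slash_diag {F G : ℍ → ℂ} (hF : QAn F) (hG : QAn G) (k : ℤ) {p : ℕ}
    (hp : p ≠ 0) (n : ℕ) :
    ModularFormClass.qCoeff (heckeU k p F + G ∣[k] heckeDiagMatrix p) n =
      ModularFormClass.qCoeff F (n * p) +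
        if p ∣ n then (p : ℂ) ^ (k - 1) * ModularFormClass.qCoeff G (n / p) else 0 := by
  rw [qCoeff_add (qan_heckeU hF k p) (qan_slash_diag hG k p),
    UpperHalfPlane.qCoeff_heckeU hF.per hF.hol hF.bdd k hp, qCoeff_slash_diag hG k hp,
    coeffHeckeU_apply]

variable [NeZero N]

/-- **`q`-expansion of `T_p` on `M_k(Γ₁(N))`**. -/
theorem qCoeff_heckeTM {p : ℕ} (hp : p.Prime) (hpN : ¬ p ∣ N) (f : ModularForm (Gamma1 N) k)
    (n : ℕ) :
    ModularFormClass.qCoeff (heckeTM k hp hpN f) n =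
      ModularFormClass.qCoeff f (n * p) +
        if p ∣ n then (p : ℂ) ^ (k - 1) *
          ModularFormClass.qCoeff (diamondM k (punit hp hpN) f) (n / p) else 0 := by
  rw [coe_heckeTM]
  exact qCoeff_heckeU_add_slash_diag (qan_modularForm f) (qan_modularForm _) k hp.ne_zero n

/-- **`q`-expansion of `T_p` on `S_k(Γ₁(N))`**:
`a_n(T_p f) = a_{np}(f) + [p ∣ n] p^(k-1) a_{n/p}(⟨p⟩ f)`. -/
theorem qCoeff_heckeT {p : ℕ} (hp : p.Prime) (hpN : ¬ p ∣ N) (f : CuspForm (Gamma1 N) k)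
    (n : ℕ) :
    ModularFormClass.qCoeff (heckeT k hp hpN f) n =
      ModularFormClass.qCoeff f (n * p) +
        if p ∣ n then (p : ℂ) ^ (k - 1) *
          ModularFormClass.qCoeff (diamond k (punit hp hpN) f) (n / p) else 0 := by
  rw [coe_heckeT]
  exact qCoeff_heckeU_add_slash_diag (qan_cuspForm f) (qan_cuspForm _) k hp.ne_zero n

omit [NeZero N] in
/-- Two cusp forms on `Γ₁(N)` with the same `q`-expansion coefficients are equal. -/
theorem cuspForm_ext_qCoeff {f g : CuspForm (Gamma1 N) k}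
    (h : ∀ n, ModularFormClass.qCoeff f n = ModularFormClass.qCoeff g n) : f = g := by
  apply DFunLike.coe_injective
  apply (qan_cuspForm f).eq_of_qExpansion_eq (qan_cuspForm g)
  ext n
  exact h n

omit [NeZero N] in
/-- Two modular forms on `Γ₁(N)` with the same `q`-expansion coefficients are equal. -/
theorem modularForm_ext_qCoeff {f g : ModularForm (Gamma1 N) k}
    (h : ∀ n, ModularFormClass.qCoeff f n = ModularFormClass.qCoeff g n) : f = g := by
  apply DFunLike.coe_injective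
  apply (qan_modularForm f).eq_of_qExpansion_eq (qan_modularForm g)
  ext n
  exact h n

end Fermat.Agent.DS.Hecke1
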