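import Mathlib
import Fermat.Agent.DS.Hecke1.QExp

/-!
# DS / Hecke1: commutativity, the Hecke algebra of `S_k(Γ₁(N))`

* `heckeT_comm` : `T_p T_q = T_q T_p`;
* `heckeAlgebra N k` : the `ℤ`-subalgebra of `End_ℂ (S_k(Γ₁(N)))` generated by all `T_p`
  (`p` prime, `p ∤ N`) and all diamond operators `⟨d⟩`; it is a commutative ring.
-/

set_option autoImplicit false

noncomputable section

namespace Fermat.Agent.DS.Hecke1

open Matrix.SpecialLinearGroup UpperHalfPlane ModularForm CongruenceSubgroup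
open scoped MatrixGroups ModularForm

/-- The coefficient operator: `C_p(a, b)(n) = a(np) + [p ∣ n] p^(k-1) b(n/p)`. -/
def coeffT (k : ℤ) (p : ℕ) (a b : ℕ → ℂ) (n : ℕ) : ℂ :=
  a (n * p) + if p ∣ n then (p : ℂ) ^ (k - 1) * b (n / p) else 0

theorem coeffT_comm (k : ℤ) {p q : ℕ} (hp : p.Prime) (hq : q.Prime) (hpq : p ≠ q)
    (a b c d : ℕ → ℂ) (n : ℕ) :
    coeffT k p (coeffT k q a b) (coeffT k q c d) n =
      coeffT k q (coeffT k p a c) (coeffT k p b d) n := by
  have hcop : Nat.Coprime p q := (Nat.coprime_primes hp hq).mpr hpq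
  have hp0 : 0 < p := hp.pos
  have hq0 : 0 < q := hq.pos
  have h1 : q ∣ n * p ↔ q ∣ n := ⟨fun h => hcop.symm.dvd_of_dvd_mul_right h, fun h => dvd_mul_of_dvd_left h p⟩
  have h2 : p ∣ n * q ↔ p ∣ n := ⟨fun h => hcop.dvd_of_dvd_mul_right h, fun h => dvd_mul_of_dvd_left h q⟩
  have h3 : n * p * q = n * q * p := by ring
  unfold coeffT
  simp only [h1, h2, h3]
  by_cases hpn : p ∣ n <;> by_cases hqn : q ∣ n
  · obtain ⟨m, rfl⟩ := hpn
    have hqm : q ∣ m := hcop.symm.dvd_of_dvd_mul_left hqn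
    obtain ⟨l, rfl⟩ := hqm
    have e1 : p * (q * l) * p / q = p * l * p := by
      rw [show p * (q * l) * p = q * (p * l * p) by ring, Nat.mul_div_cancel_left _ hq0]
    have e2 : p * (q * l) / p = q * l := Nat.mul_div_cancel_left _ hp0
    have e3 : p * (q * l) * q / p = q * l * q := by
      rw [show p * (q * l) * q = p * (q * l * q) by ring, Nat.mul_div_cancel_left _ hp0]
    have e4 : p * (q * l) / q = p * l := by
      rw [show p * (q * l) = q * (p * l) by ring, Nat.mul_div_cancel_left _ hq0]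
    have e5 : q * l / q = l := Nat.mul_div_cancel_left _ hq0
    have e6 : p * l / p = l := Nat.mul_div_cancel_left _ hp0
    have d1 : q ∣ q * l := dvd_mul_right q l
    have d2 : p ∣ p * l := dvd_mul_right p l
    simp only [if_pos (dvd_mul_right p (q * l)), if_pos hqn, e1, e2, e3, e4, e5, e6, if_pos d1,
      if_pos d2]
    ring
  · obtain ⟨m, rfl⟩ := hpn
    have hqm : ¬ q ∣ m := fun h => hqn (dvd_mul_of_dvd_right h p)
    have e2 : p * m / p = m := Nat.mul_div_cancel_left _ hp0
    have e3 : p * m * q / p = m * q := by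
      rw [show p * m * q = p * (m * q) by ring, Nat.mul_div_cancel_left _ hp0]
    simp only [if_pos (dvd_mul_right p m), if_neg hqn, e2, e3, if_neg hqm]
    ring
  · obtain ⟨m, rfl⟩ := hqn
    have hpm : ¬ p ∣ m := fun h => hpn (dvd_mul_of_dvd_right h q)
    have e2 : q * m / q = m := Nat.mul_div_cancel_left _ hq0
    have e3 : q * m * p / q = m * p := by
      rw [show q * m * p = q * (m * p) by ring, Nat.mul_div_cancel_left _ hq0]
    simp only [if_pos (dvd_mul_right q m), if_neg hpn, e2, e3, if_neg hpm]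
    ring
  · simp only [if_neg hpn, if_neg hqn]

variable {N : ℕ} [NeZero N] {k : ℤ}

theorem qCoeff_heckeT_eq_coeffT {p : ℕ} (hp : p.Prime) (hpN : ¬ p ∣ N)
    (f : CuspForm (Gamma1 N) k) (n : ℕ) :
    ModularFormClass.qCoeff (heckeT k hp hpN f) n =
      coeffT k p (ModularFormClass.qCoeff f)
        (ModularFormClass.qCoeff (diamond k (punit hp hpN) f)) n :=
  qCoeff_heckeT hp hpN f n

theorem qCoeff_heckeTM_eq_coeffT {p : ℕ} (hp : p.Prime) (hpN : ¬ p ∣ N)
    (f : ModularForm (Gamma1 N) k) (n : ℕ) :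
    ModularFormClass.qCoeff (heckeTM k hp hpN f) n =
      coeffT k p (ModularFormClass.qCoeff f)
        (ModularFormClass.qCoeff (diamondM k (punit hp hpN) f)) n :=
  qCoeff_heckeTM hp hpN f n

/-- The Hecke operators `T_p`, `T_q` on `S_k(Γ₁(N))` commute. -/
theorem heckeT_comm {p q : ℕ} (hp : p.Prime) (hpN : ¬ p ∣ N) (hq : q.Prime) (hqN : ¬ q ∣ N) :
    Commute (heckeT k hp hpN) (heckeT (N := N) k hq hqN) := by
  by_cases hpq : p = q
  · subst hpq
    exact Commute.refl _
  refine LinearMap.ext fun f => cuspForm_ext_qCoeff fun n => ?_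
  rw [Module.End.mul_apply, Module.End.mul_apply, qCoeff_heckeT_eq_coeffT, qCoeff_heckeT_eq_coeffT]
  have e1 : diamond k (punit hp hpN) (heckeT k hq hqN f) =
      heckeT k hq hqN (diamond k (punit hp hpN) f) :=
    congrArg (fun T => T f) (diamond_heckeT_comm (punit hp hpN) hq hqN).eq
  have e2 : diamond k (punit hq hqN) (heckeT k hp hpN f) =
      heckeT k hp hpN (diamond k (punit hq hqN) f) :=
    congrArg (fun T => T f) (diamond_heckeT_comm (punit hq hqN) hp hpN).eq
  have e3 : diamond k (punit hq hqN) (diamond k (punit hp hpN) f) =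
      diamond k (punit hp hpN) (diamond k (punit hq hqN) f) :=
    congrArg (fun T => T f) (diamond_comm (punit hq hqN) (punit hp hpN)).eq
  rw [e1, e2]
  have l1 : (ModularFormClass.qCoeff (heckeT k hq hqN f) : ℕ → ℂ) =
      coeffT k q (ModularFormClass.qCoeff f)
        (ModularFormClass.qCoeff (diamond k (punit hq hqN) f)) :=
    funext fun m => qCoeff_heckeT_eq_coeffT hq hqN f m
  have l2 : (ModularFormClass.qCoeff (heckeT k hq hqN (diamond k (punit hp hpN) f)) : ℕ → ℂ) =
      coeffT k q (ModularFormClass.qCoeff (diamond k (punit hp hpN) f))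
        (ModularFormClass.qCoeff (diamond k (punit hp hpN) (diamond k (punit hq hqN) f))) := by
    funext m
    rw [qCoeff_heckeT_eq_coeffT, e3]
  have l3 : (ModularFormClass.qCoeff (heckeT k hp hpN f) : ℕ → ℂ) =
      coeffT k p (ModularFormClass.qCoeff f)
        (ModularFormClass.qCoeff (diamond k (punit hp hpN) f)) :=
    funext fun m => qCoeff_heckeT_eq_coeffT hp hpN f m
  have l4 : (ModularFormClass.qCoeff (heckeT k hp hpN (diamond k (punit hq hqN) f)) : ℕ → ℂ) =
      coeffT k p (ModularFormClass.qCoeff (diamond k (punit hq hqN) f))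
        (ModularFormClass.qCoeff (diamond k (punit hp hpN) (diamond k (punit hq hqN) f))) :=
    funext fun m => qCoeff_heckeT_eq_coeffT hp hpN _ m
  rw [l1, l2, l3, l4]
  exact coeffT_comm k hp hq hpq _ _ _ _ n

/-- The Hecke operators `T_p`, `T_q` on `M_k(Γ₁(N))` commute. -/
theorem heckeTM_comm {p q : ℕ} (hp : p.Prime) (hpN : ¬ p ∣ N) (hq : q.Prime) (hqN : ¬ q ∣ N) :
    Commute (heckeTM k hp hpN) (heckeTM (N := N) k hq hqN) := by
  by_cases hpq : p = q
  · subst hpq
    exact Commute.refl _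
  refine LinearMap.ext fun f => modularForm_ext_qCoeff fun n => ?_
  rw [Module.End.mul_apply, Module.End.mul_apply, qCoeff_heckeTM_eq_coeffT,
    qCoeff_heckeTM_eq_coeffT]
  have e1 : diamondM k (punit hp hpN) (heckeTM k hq hqN f) =
      heckeTM k hq hqN (diamondM k (punit hp hpN) f) :=
    congrArg (fun T => T f) (diamondM_heckeTM_comm (punit hp hpN) hq hqN).eq
  have e2 : diamondM k (punit hq hqN) (heckeTM k hp hpN f) =
      heckeTM k hp hpN (diamondM k (punit hq hqN) f) :=
    congrArg (fun T => T f) (diamondM_heckeTM_comm (punit hq hqN) hp hpN).eq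
  have e3 : diamondM k (punit hq hqN) (diamondM k (punit hp hpN) f) =
      diamondM k (punit hp hpN) (diamondM k (punit hq hqN) f) :=
    congrArg (fun T => T f) (diamondM_comm (punit hq hqN) (punit hp hpN)).eq
  rw [e1, e2]
  have l1 : (ModularFormClass.qCoeff (heckeTM k hq hqN f) : ℕ → ℂ) =
      coeffT k q (ModularFormClass.qCoeff f)
        (ModularFormClass.qCoeff (diamondM k (punit hq hqN) f)) :=
    funext fun m => qCoeff_heckeTM_eq_coeffT hq hqN f m
  have l2 : (ModularFormClass.qCoeff (heckeTM k hq hqN (diamondM k (punit hp hpN) f)) : ℕ → ℂ) =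
      coeffT k q (ModularFormClass.qCoeff (diamondM k (punit hp hpN) f))
        (ModularFormClass.qCoeff (diamondM k (punit hp hpN) (diamondM k (punit hq hqN) f))) := by
    funext m
    rw [qCoeff_heckeTM_eq_coeffT, e3]
  have l3 : (ModularFormClass.qCoeff (heckeTM k hp hpN f) : ℕ → ℂ) =
      coeffT k p (ModularFormClass.qCoeff f)
        (ModularFormClass.qCoeff (diamondM k (punit hp hpN) f)) :=
    funext fun m => qCoeff_heckeTM_eq_coeffT hp hpN f m
  have l4 : (ModularFormClass.qCoeff (heckeTM k hp hpN (diamondM k (punit hq hqN) f)) : ℕ → ℂ) =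
      coeffT k p (ModularFormClass.qCoeff (diamondM k (punit hq hqN) f))
        (ModularFormClass.qCoeff (diamondM k (punit hp hpN) (diamondM k (punit hq hqN) f))) :=
    funext fun m => qCoeff_heckeTM_eq_coeffT hp hpN _ m
  rw [l1, l2, l3, l4]
  exact coeffT_comm k hp hq hpq _ _ _ _ n

/-! ### The Hecke algebra -/

variable (N k)

/-- The generators of the Hecke algebra of `S_k(Γ₁(N))`: all `T_p` (`p` prime, `p ∤ N`) and all
diamond operators `⟨d⟩`. -/
def heckeGenerators : Set (Module.End ℂ (CuspForm (Gamma1 N) k)) :=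
  {T | ∃ (p : ℕ) (hp : p.Prime) (hpN : ¬ p ∣ N), T = heckeT k hp hpN} ∪
    {D | ∃ d : (ZMod N)ˣ, D = diamond k d}

/-- The Hecke algebra of `S_k(Γ₁(N))` (away from the level). -/
def heckeAlgebra : Subalgebra ℤ (Module.End ℂ (CuspForm (Gamma1 N) k)) :=
  Algebra.adjoin ℤ (heckeGenerators N k)

variable {N k}

theorem heckeT_mem_heckeGenerators {p : ℕ} (hp : p.Prime) (hpN : ¬ p ∣ N) :
    heckeT k hp hpN ∈ heckeGenerators N k :=
  Or.inl ⟨p, hp, hpN, rfl⟩

theorem diamond_mem_heckeGenerators (d : (ZMod N)ˣ) : diamond k d ∈ heckeGenerators N k :=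
  Or.inr ⟨d, rfl⟩

theorem heckeT_mem_heckeAlgebra {p : ℕ} (hp : p.Prime) (hpN : ¬ p ∣ N) :
    heckeT k hp hpN ∈ heckeAlgebra N k :=
  Algebra.subset_adjoin (heckeT_mem_heckeGenerators hp hpN)

theorem diamond_mem_heckeAlgebra (d : (ZMod N)ˣ) : diamond k d ∈ heckeAlgebra N k :=
  Algebra.subset_adjoin (diamond_mem_heckeGenerators d)

theorem commute_of_mem_heckeGenerators {T T' : Module.End ℂ (CuspForm (Gamma1 N) k)}
    (hT : T ∈ heckeGenerators N k) (hT' : T' ∈ heckeGenerators N k) : Commute T T' := by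
  rcases hT with ⟨p, hp, hpN, rfl⟩ | ⟨d, rfl⟩ <;> rcases hT' with ⟨q, hq, hqN, rfl⟩ | ⟨d', rfl⟩
  · exact heckeT_comm hp hpN hq hqN
  · exact (diamond_heckeT_comm d' hp hpN).symm
  · exact diamond_heckeT_comm d hq hqN
  · exact diamond_comm d d'

variable (N k)

instance heckeAlgebra.instIsMulCommutative : IsMulCommutative (heckeAlgebra N k) :=
  Algebra.isMulCommutative_adjoin ℤ fun _ hT _ hT' => commute_of_mem_heckeGenerators hT hT'

open scoped IsMulCommutative in
instance heckeAlgebra.instCommRing : CommRing (heckeAlgebra N k) := inferInstance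

variable {N k}

/-- `T_p` as an element of the Hecke algebra. -/
def heckeAlgebra.T {p : ℕ} (hp : p.Prime) (hpN : ¬ p ∣ N) : heckeAlgebra N k :=
  ⟨heckeT k hp hpN, heckeT_mem_heckeAlgebra hp hpN⟩

/-- `⟨d⟩` as an element of the Hecke algebra. -/
def heckeAlgebra.D (d : (ZMod N)ˣ) : heckeAlgebra N k :=
  ⟨diamond k d, diamond_mem_heckeAlgebra d⟩

@[simp] theorem heckeAlgebra.coe_T {p : ℕ} (hp : p.Prime) (hpN : ¬ p ∣ N) :
    ((heckeAlgebra.T hp hpN : heckeAlgebra N k) : Module.End ℂ (CuspForm (Gamma1 N) k)) =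
      heckeT k hp hpN := rfl

@[simp] theorem heckeAlgebra.coe_D (d : (ZMod N)ˣ) :
    ((heckeAlgebra.D d : heckeAlgebra N k) : Module.End ℂ (CuspForm (Gamma1 N) k)) =
      diamond k d := rfl

end Fermat.Agent.DS.Hecke1
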