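import Mathlib
import Fermat.Agent.DS.Hecke1.Comm
import Fermat.Prelude.Thm_ModularForm_sturm_bound_of_isArithmetic

/-!
# DS / Hecke1: eigenforms on `Γ₁(N)` have a nebentypus

* `vp_lemma` : if `h`, `g ∈ S_k(Γ₁(N))`, `p ∤ N` prime and `g = h ∣[k] diag(p, 1)`
  (i.e. `g(z) = p^(k-1) h(pz)`), then `h = 0`;
* `diamond_eq_of_hecke`, `slash_eq_of_hecke`, `heckeT_eq_of_hecke` : a cusp form on `Γ₁(N)` whose
  `q`-coefficients satisfy the Hecke relations with character `ε` at all primes `p ∤ N` is an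
  eigenvector of all diamond operators with eigencharacter `ε` (so it is a form on `Γ₀(N)` with
  nebentypus `ε`), and an eigenvector of all `T_p`.
-/

set_option autoImplicit false

noncomputable section

namespace Fermat.Agent.DS.Hecke1

open Matrix.SpecialLinearGroup UpperHalfPlane ModularForm CongruenceSubgroup Fermat.Agent.S23
open scoped MatrixGroups ModularForm

/-- `q`-analytic functions with the same `q`-coefficients are equal. -/
theorem qan_ext_qCoeff {F G : ℍ → ℂ} (hF : QAn F) (hG : QAn G)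
    (h : ∀ n, ModularFormClass.qCoeff F n = ModularFormClass.qCoeff G n) : F = G := by
  apply hF.eq_of_qExpansion_eq hG
  ext n
  exact h n

/-- `U_p (F ∣ diag(p,1)) = p^(k-1) F`. -/
theorem heckeU_slash_diag {F : ℍ → ℂ} (hF : QAn F) (k : ℤ) {p : ℕ} (hp : p ≠ 0) :
    heckeU k p (F ∣[k] heckeDiagMatrix p) = ((p : ℂ) ^ (k - 1)) • F := by
  have hD := qan_slash_diag hF k p
  refine qan_ext_qCoeff (qan_heckeU hD k p) (hF.smul _) fun n => ?_
  rw [UpperHalfPlane.qCoeff_heckeU hD.per hD.hol hD.bdd k hp, coeffHeckeU_apply,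
    qCoeff_slash_diag hF k hp, if_pos (dvd_mul_left p n),
    Nat.mul_div_cancel _ (Nat.pos_of_ne_zero hp), qCoeff_smul hF]

variable {N : ℕ} [NeZero N] {k : ℤ}

/-- Diamond operators commute with `∣ diag(p,1)` for `p` prime to `N`. -/
theorem dia_slash_diag {p : ℕ} (hp : p ≠ 0) (hpN : p.Coprime N) {F : ℍ → ℂ} (hF : Inv1 N k F)
    (hFD : Inv1 N k (F ∣[k] heckeDiagMatrix p)) (d : (ZMod N)ˣ) :
    dia N k d (F ∣[k] heckeDiagMatrix p) = (dia N k d F) ∣[k] heckeDiagMatrix p := by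
  obtain ⟨γ, hγ, ⟨e, he⟩, hlr⟩ := exists_rep_dvd d p hpN
  obtain ⟨γ', h10, h11, hmul⟩ := dd_mul hp γ e he
  have hγ' : γ' ∈ Gamma0 N := by
    rw [Gamma0_mem, h10]
    have h0 : ((γ 1 0 : ℤ) : ZMod N) = 0 := Gamma0_mem.mp hγ
    rw [he] at h0
    have hdvd : (N : ℤ) ∣ (p : ℤ) * e := (ZMod.intCast_zmod_eq_zero_iff_dvd _ N).mp h0
    have hcop : IsCoprime (N : ℤ) (p : ℤ) := by
      rw [Int.isCoprime_iff_gcd_eq_one, Int.gcd_natCast_natCast]
      exact hpN.symm
    exact (ZMod.intCast_zmod_eq_zero_iff_dvd _ N).mpr (hcop.dvd_of_dvd_mul_left hdvd)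
  have hlr' : lr N γ' = d := by
    rw [lr, h11]
    exact hlr
  rw [← slash_eq_dia hFD hγ hlr, ← slash_eq_dia hF hγ' hlr', ← SlashAction.slash_mul,
    ← SlashAction.slash_mul, hmul]

/-- If `g = V_p h` then `⟨d⟩ g = V_p ⟨d⟩ h`. -/
theorem diamond_slash_diag {p : ℕ} (hp : p.Prime) (hpN : ¬ p ∣ N) {h g : CuspForm (Gamma1 N) k}
    (hV : ⇑g = ⇑h ∣[k] heckeDiagMatrix p) (d : (ZMod N)ˣ) :
    ⇑(diamond k d g) = ⇑(diamond k d h) ∣[k] heckeDiagMatrix p := by
  rw [coe_diamond, coe_diamond, hV]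
  exact dia_slash_diag hp.ne_zero ((Nat.Prime.coprime_iff_not_dvd hp).mpr hpN) (inv1_cuspForm h)
    (hV ▸ inv1_cuspForm g) d

/-- If `g = V_p h` (both of level `N`, `p ∤ N`) then `V_p g` is again of level `N`. -/
theorem exists_slash_diag_next {p : ℕ} (hp : p.Prime) (hpN : ¬ p ∣ N)
    {h g : CuspForm (Gamma1 N) k} (hV : ⇑g = ⇑h ∣[k] heckeDiagMatrix p) :
    ∃ g' : CuspForm (Gamma1 N) k, ⇑g' = ⇑g ∣[k] heckeDiagMatrix p := by
  -- `T_p g = p^(k-1) h + V_p ⟨p⟩ g`
  have h1 : ⇑(heckeT k hp hpN g - ((p : ℂ) ^ (k - 1)) • h) =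
      ⇑(diamond k (punit hp hpN) g) ∣[k] heckeDiagMatrix p := by
    rw [FunLike.coe_sub, FunLike.coe_smul, coe_heckeT, hV,
      heckeU_slash_diag (qan_cuspForm h) k hp.ne_zero]
    abel
  have h2 := diamond_slash_diag hp hpN h1 (punit hp hpN)⁻¹
  have h3 : diamond k (punit hp hpN)⁻¹ (diamond k (punit hp hpN) g) = g := by
    have := congrArg (fun T => T g) (diamond_mul (k := k) (punit (N := N) hp hpN)⁻¹ (punit hp hpN))
    simp only [inv_mul_cancel, diamond_one, Module.End.one_apply, Module.End.mul_apply] at this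
    exact this.symm
  rw [h3] at h2
  exact ⟨_, h2⟩

/-- The `q`-coefficients of `V_p h`. -/
theorem qCoeff_of_slash_diag {p : ℕ} (hp : p ≠ 0) {h g : CuspForm (Gamma1 N) k}
    (hV : ⇑g = ⇑h ∣[k] heckeDiagMatrix p) (n : ℕ) :
    ModularFormClass.qCoeff g n =
      if p ∣ n then (p : ℂ) ^ (k - 1) * ModularFormClass.qCoeff h (n / p) else 0 := by
  rw [hV, qCoeff_slash_diag (qan_cuspForm h) k hp]

/-- `V_p` is injective. -/
theorem eq_zero_of_slash_diag_eq_zero {p : ℕ} (hp : p ≠ 0) {h g : CuspForm (Gamma1 N) k}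
    (hV : ⇑g = ⇑h ∣[k] heckeDiagMatrix p) (hg : g = 0) : h = 0 := by
  refine cuspForm_ext_qCoeff fun n => ?_
  have h1 := qCoeff_of_slash_diag hp hV (n * p)
  rw [if_pos (dvd_mul_left p n), Nat.mul_div_cancel _ (Nat.pos_of_ne_zero hp), hg] at h1
  have hz : ModularFormClass.qCoeff (⇑(0 : CuspForm (Gamma1 N) k)) (n * p) = 0 := by
    rw [FunLike.coe_zero]
    unfold ModularFormClass.qCoeff
    rw [UpperHalfPlane.qExpansion_zero]
    simp
  have hz' : ModularFormClass.qCoeff (⇑(0 : CuspForm (Gamma1 N) k)) n = 0 := by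
    rw [FunLike.coe_zero]
    unfold ModularFormClass.qCoeff
    rw [UpperHalfPlane.qExpansion_zero]
    simp
  rw [hz] at h1
  have hpk : ((p : ℂ) ^ (k - 1)) ≠ 0 := zpow_ne_zero _ (Nat.cast_ne_zero.mpr hp)
  rw [hz']
  exact (mul_eq_zero.mp h1.symm).resolve_left hpk

/-- The constant term of a cusp form on `Γ₁(N)` vanishes. -/
theorem qCoeff_zero_cuspForm (f : CuspForm (Gamma1 N) k) : ModularFormClass.qCoeff f 0 = 0 :=
  CuspFormClass.qExpansion_coeff_zero f one_pos (one_mem_strictPeriods1 N)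

/-- A cusp form as a modular form. -/
def cuspToModular (f : CuspForm (Gamma1 N) k) : ModularForm (Gamma1 N) k where
  toSlashInvariantForm := f.toSlashInvariantForm
  holo' := f.holo'
  bdd_at_cusps' := fun hc g hg => (f.zero_at_cusps' hc g hg).isBoundedAtImInfty

theorem coe_cuspToModular (f : CuspForm (Gamma1 N) k) : ⇑(cuspToModular f) = ⇑f := rfl

/-- **Sturm bound** for cusp forms on `Γ₁(N)`, in terms of `q`-coefficients. -/
theorem exists_sturm_bound (N : ℕ) [NeZero N] (k : ℤ) :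
    ∃ B : ℕ, ∀ f : CuspForm (Gamma1 N) k,
      (∀ n ≤ B, ModularFormClass.qCoeff f n = 0) → f = 0 := by
  refine ⟨(k * (Gamma1 N : Subgroup (GL (Fin 2) ℝ)).relIndex 𝒮ℒ).toNat / 12, fun f hf => ?_⟩
  have h0 : cuspToModular f = 0 := by
    apply ModularForm.sturm_bound_of_isArithmetic (one_mem_strictPeriods1 N)
    refine lt_of_lt_of_le ?_ (PowerSeries.nat_le_order _
      ((k * (Gamma1 N : Subgroup (GL (Fin 2) ℝ)).relIndex 𝒮ℒ).toNat / 12 + 1) fun i hi => ?_)
    · exact_mod_cast Nat.lt_succ_self _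
    · exact hf i (Nat.lt_succ_iff.mp hi)
  apply DFunLike.coe_injective
  rw [← coe_cuspToModular, h0]
  rfl

/-- **The `V_p`-lemma.** If `h` and `g = V_p h = h ∣[k] diag(p, 1)` are both cusp forms on
`Γ₁(N)` and `p ∤ N`, then `h = 0`. -/
theorem vp_lemma {p : ℕ} (hp : p.Prime) (hpN : ¬ p ∣ N) {h g : CuspForm (Gamma1 N) k}
    (hV : ⇑g = ⇑h ∣[k] heckeDiagMatrix p) : h = 0 := by
  obtain ⟨B, hB⟩ := exists_sturm_bound N k
  have key : ∀ (m j : ℕ) (h g : CuspForm (Gamma1 N) k), ⇑g = ⇑h ∣[k] heckeDiagMatrix p →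
      (∀ n, ¬ p ^ j ∣ n → ModularFormClass.qCoeff h n = 0) → B < p ^ (j + m) → h = 0 := by
    intro m
    induction m with
    | zero =>
      intro j h g _ hsupp hlt
      refine hB h fun n hn => ?_
      rcases Nat.eq_zero_or_pos n with rfl | hpos
      · exact qCoeff_zero_cuspForm h
      · exact hsupp n (Nat.not_dvd_of_pos_of_lt hpos (lt_of_le_of_lt hn (by simpa using hlt)))
    | succ m ih =>
      intro j h g hV hsupp hlt
      obtain ⟨g', hV'⟩ := exists_slash_diag_next hp hpN hV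
      have hg : g = 0 := by
        refine ih (j + 1) g g' hV' (fun n hn => ?_) (by rw [add_right_comm, add_assoc]; exact hlt)
        rw [qCoeff_of_slash_diag hp.ne_zero hV]
        split_ifs with hpn
        · obtain ⟨n', rfl⟩ := hpn
          rw [Nat.mul_div_cancel_left _ hp.pos, hsupp n' fun hdvd => hn ?_, mul_zero]
          rw [pow_succ, mul_comm]
          exact Nat.mul_dvd_mul_left p hdvd
        · rfl
      exact eq_zero_of_slash_diag_eq_zero hp.ne_zero hV hg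
  refine key B 0 h g hV (fun n hn => absurd (by simp) hn) ?_
  rw [zero_add]
  exact Nat.lt_pow_self hp.one_lt

/-! ### Eigenforms -/

/-- The class of a unit `d` of `ZMod N` is the class of a prime `p ∤ N` (Dirichlet). -/
theorem exists_prime_punit_eq (d : (ZMod N)ˣ) (n : ℕ) :
    ∃ (p : ℕ) (hp : p.Prime) (hpN : ¬ p ∣ N), n < p ∧ punit hp hpN = d := by
  obtain ⟨p, hgt, hp, hpd⟩ :=
    Nat.forall_exists_prime_gt_and_eq_mod (q := N) (a := (d : ZMod N)) d.isUnit (max n N)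
  have hpN : ¬ p ∣ N :=
    Nat.not_dvd_of_pos_of_lt (NeZero.pos N) (lt_of_le_of_lt (le_max_right n N) hgt)
  exact ⟨p, hp, hpN, lt_of_le_of_lt (le_max_left n N) hgt, Units.ext ((coe_punit hp hpN).trans hpd)⟩

section eigen

variable (ε : DirichletCharacter ℂ N) (f : CuspForm (Gamma1 N) k)
  (hT : ∀ p : ℕ, p.Prime → ¬ p ∣ N → ∀ n : ℕ,
    ModularFormClass.qCoeff f (p * n) +
        ε (p : ZMod N) * (p : ℂ) ^ (k - 1) *
          (if p ∣ n then ModularFormClass.qCoeff f (n / p) else 0) =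
      ModularFormClass.qCoeff f p * ModularFormClass.qCoeff f n)

include hT

/-- The difference `T_p f − a_p f` is `V_p (⟨p⟩ f − ε(p) f)`. -/
theorem heckeT_sub_eq_slash_diag {p : ℕ} (hp : p.Prime) (hpN : ¬ p ∣ N) :
    ⇑(heckeT k hp hpN f - ModularFormClass.qCoeff f p • f) =
      ⇑(diamond k (punit hp hpN) f - ε (p : ZMod N) • f) ∣[k] heckeDiagMatrix p := by
  refine qan_ext_qCoeff (qan_cuspForm _) (qan_slash_diag (qan_cuspForm _) k p) fun n => ?_
  rw [qCoeff_slash_diag (qan_cuspForm _) k hp.ne_zero, FunLike.coe_sub, FunLike.coe_smul,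
    FunLike.coe_sub, FunLike.coe_smul,
    qCoeff_sub (qan_cuspForm _) ((qan_cuspForm f).smul _), qCoeff_smul (qan_cuspForm f),
    qCoeff_heckeT hp hpN f n]
  have h := hT p hp hpN n
  rw [mul_comm p n] at h
  split_ifs with hpn
  · rw [if_pos hpn] at h
    rw [qCoeff_sub (qan_cuspForm _) ((qan_cuspForm f).smul _), qCoeff_smul (qan_cuspForm f)]
    linear_combination h
  · rw [if_neg hpn] at h
    linear_combination h

/-- `⟨p⟩ f = ε(p) f` for primes `p ∤ N`. -/
theorem diamond_punit_eq_of_hecke {p : ℕ} (hp : p.Prime) (hpN : ¬ p ∣ N) :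
    diamond k (punit hp hpN) f = ε (p : ZMod N) • f :=
  sub_eq_zero.mp (vp_lemma hp hpN (heckeT_sub_eq_slash_diag ε f hT hp hpN))

/-- **Nebentypus**: `⟨d⟩ f = ε(d) f` for all `d`. -/
theorem diamond_eq_of_hecke (d : (ZMod N)ˣ) : diamond k d f = ε (d : ZMod N) • f := by
  obtain ⟨p, hp, hpN, -, rfl⟩ := exists_prime_punit_eq d 0
  rw [diamond_punit_eq_of_hecke ε f hT hp hpN, coe_punit]

/-- `T_p f = a_p f` for primes `p ∤ N`. -/
theorem heckeT_eq_of_hecke {p : ℕ} (hp : p.Prime) (hpN : ¬ p ∣ N) :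
    heckeT k hp hpN f = ModularFormClass.qCoeff f p • f := by
  have h1 := heckeT_sub_eq_slash_diag ε f hT hp hpN
  rw [sub_eq_zero.mpr (diamond_punit_eq_of_hecke ε f hT hp hpN), FunLike.coe_zero,
    SlashAction.zero_slash] at h1
  exact sub_eq_zero.mp (DFunLike.coe_injective h1)

/-- **Nebentypus, slash form**: `f ∣[k] γ = ε(d_γ) f` for `γ ∈ Γ₀(N)`. -/
theorem slash_eq_of_hecke (γ : SL(2, ℤ)) (hγ : γ ∈ Gamma0 N) :
    ⇑f ∣[k] γ = ε ((γ 1 1 : ℤ) : ZMod N) • ⇑f := by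
  have hu : IsUnit (lr N γ) := by
    refine IsUnit.of_mul_eq_one (lr N γ⁻¹) ?_
    rw [← lr_mul hγ, mul_inv_cancel, lr_one]
  obtain ⟨d, hd⟩ := hu
  have h1 := coe_diamond_eq_slash (k := k) d f γ hγ hd.symm
  rw [diamond_eq_of_hecke ε f hT d, FunLike.coe_smul, hd] at h1
  exact h1.symm

end eigen

/-! ### Weight one, in the shape of the hypotheses of the Deligne–Serre statement -/

section weightOne

variable (ε : DirichletCharacter ℂ N) (f : CuspForm (Gamma1 N) 1)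
  (hT : ∀ p : ℕ, p.Prime → ¬ p ∣ N → ∀ n : ℕ,
    ModularFormClass.qCoeff f (p * n) +
        ε (p : ZMod N) * (if p ∣ n then ModularFormClass.qCoeff f (n / p) else 0) =
      ModularFormClass.qCoeff f p * ModularFormClass.qCoeff f n)

include hT

theorem hecke_rel_of_weightOne : ∀ p : ℕ, p.Prime → ¬ p ∣ N → ∀ n : ℕ,
    ModularFormClass.qCoeff f (p * n) +
        ε (p : ZMod N) * (p : ℂ) ^ ((1 : ℤ) - 1) *
          (if p ∣ n then ModularFormClass.qCoeff f (n / p) else 0) =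
      ModularFormClass.qCoeff f p * ModularFormClass.qCoeff f n := by
  intro p hp hpN n
  rw [sub_self, zpow_zero, mul_one]
  exact hT p hp hpN n

theorem diamond_eq_of_hecke_one (d : (ZMod N)ˣ) : diamond 1 d f = ε (d : ZMod N) • f :=
  diamond_eq_of_hecke ε f (hecke_rel_of_weightOne ε f hT) d

theorem heckeT_eq_of_hecke_one {p : ℕ} (hp : p.Prime) (hpN : ¬ p ∣ N) :
    heckeT 1 hp hpN f = ModularFormClass.qCoeff f p • f :=
  heckeT_eq_of_hecke ε f (hecke_rel_of_weightOne ε f hT) hp hpN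

theorem slash_eq_of_hecke_one (γ : SL(2, ℤ)) (hγ : γ ∈ Gamma0 N) :
    ⇑f ∣[(1 : ℤ)] γ = ε ((γ 1 1 : ℤ) : ZMod N) • ⇑f :=
  slash_eq_of_hecke ε f (hecke_rel_of_weightOne ε f hT) γ hγ

end weightOne

end Fermat.Agent.DS.Hecke1
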